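import Fermat.Agent.Attach.Cyclo
import Fermat.Agent.EC.FrobTrace
import Fermat.Agent.EC.TorsionGalois
import Fermat.Agent.Frey.FreyModel
import Fermat.Agent.Tate.E0Line
import Fermat.Agent.Tate.Frobenius
import Fermat.Agent.Tate.Integral

/-!
# Level of a semistable curve: the facts on the curve side

The bound `|a_q| ≤ q`, and the traces of Frobenius and of inertia at `q` on `E[p]`.
-/

noncomputable section

namespace Fermat.Agent.Level

open WeierstrassCurve Fermat.Agent.Attach
open scoped WeierstrassCurve.Affine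

local notation "Qbar" => AlgebraicClosure ℚ
local notation "GQ" => (AlgebraicClosure ℚ ≃ₐ[ℚ] AlgebraicClosure ℚ)

variable (W : WeierstrassCurve ℤ) {q p : ℕ} [Fact p.Prime]

/-- The trivial bound `|a_q| ≤ q`. -/
theorem abs_apOfModel_le (hq : q.Prime) (hgood : W.IsGoodPrimeFor q) :
    |W.apOfModel q| ≤ (q : ℤ) := by
  classical
  have : Fact q.Prime := ⟨hq⟩
  have : (W.reductionMod q).IsElliptic := by
    refine ⟨IsUnit.mk0 _ ?_⟩
    rw [reductionMod, WeierstrassCurve.map_Δ]
    exact fun h ↦ hgood ((ZMod.intCast_zmod_eq_zero_iff_dvd _ q).mp h)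
  have hcard := EC.natCard_point (W.reductionMod q)
  have hle : ∑ c, EC.fibre (W.reductionMod q) c ≤ 2 * q := by
    refine (Finset.sum_le_card_nsmul _ _ 2 fun c _ =>
      (EC.fibre_cases (k := AlgebraicClosure (ZMod q)) (W.reductionMod q) c).1).trans ?_
    simp [mul_comm]
  rw [apOfModel, traceOfFrobenius, WeierstrassCurve.card, Nat.card_zmod, hcard]
  generalize ∑ c, EC.fibre (W.reductionMod q) c = n at hle ⊢
  rw [abs_le]
  constructor <;> push_cast <;> omega

open Classical in
/-- On inertia at a prime `q ≠ p` of good or multiplicative reduction the trace on `E[p]` is `2`. -/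
theorem galoisTrace_inertia (hq : q.Prime) (hpq : p ≠ q) (hp2 : p ≠ 2) (hΔ0 : W.Δ ≠ 0)
    (hss : (q : ℤ) ∣ W.Δ → ¬ (q : ℤ) ∣ W.c₄) {A : ValuationSubring Qbar} (hA : A.LiesOverPrime q)
    {σ : GQ} (hσ : σ ∈ A.inertiaSubgroupIn ℚ) :
    Affine.Point.galoisTrace ℚ (W.map (Int.castRingHom ℚ)).toAffine p σ = 2 := by
  have hp : p.Prime := Fact.out
  have := Frey.isElliptic_mapRat hΔ0
  set E := W.map (Int.castRingHom ℚ) with hE
  have hpQ : (p : Qbar) ≠ 0 := Nat.cast_ne_zero.mpr hp.ne_zero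
  have hrank := EC.finrank_torsionBy E p hpQ
  have : Finite (Submodule.torsionBy ℤ (E⁄Qbar).Point (p : ℤ)) := EC.finite_torsionBy E p hpQ
  have : Module.Finite (ZMod p) (Submodule.torsionBy ℤ (E⁄Qbar).Point (p : ℤ)) :=
    Module.Finite.of_finite
  set f := Affine.Point.galoisRepModuleEnd (K := Qbar) ℚ E.toAffine p σ with hf
  have hqp : ¬ q ∣ p := fun h => hpq ((Nat.prime_dvd_prime_iff_eq hq hp).mp h).symm
  have htor : ∀ x : Submodule.torsionBy ℤ (E⁄Qbar).Point (p : ℤ), p • x.1 = 0 := fun x => by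
    rw [← natCast_zsmul]
    exact (Submodule.mem_torsionBy_iff _ _).mp x.2
  have hsq : ∀ x, f (f x - x) = f x - x := by
    intro x
    apply Subtype.ext
    show σ • (σ • x.1 - x.1) = σ • x.1 - x.1
    by_cases hbad : (q : ℤ) ∣ W.Δ
    · have h1 := Tate.inE0_sub_smul hq hA hΔ0 hbad (hss hbad) hσ hp2 (htor x)
      have h2 : p • (x.1 - σ • x.1) = 0 := by
        rw [nsmul_sub, htor x, zero_sub, neg_eq_zero, ← natCast_zsmul,
          ← Affine.Point.algEquiv_smul_zsmul, natCast_zsmul, htor x, smul_zero]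
      have h3 := Tate.smul_eq_of_inE0 hq hA hσ hp2 hpq h2 h1
      rw [← neg_sub x.1 (σ • x.1), smul_neg, h3]
    · have h3 : σ • x.1 = x.1 := EC.inertia_fixes_torsion hq hA hqp hσ
        (EC.inZeroComponentAt_of_good hq hA hbad _) (htor x)
      rw [h3, sub_self, smul_zero]
  have hdet : LinearMap.det f = 1 := by
    have hn : Nat.card (rootsOfUnity p Qbar) = p := by
      have : NeZero p := ⟨hp.ne_zero⟩
      have : NeZero (p : Qbar) := ⟨hpQ⟩
      exact HasEnoughRootsOfUnity.natCard_rootsOfUnity Qbar p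
    have h := congrArg Units.val (EC.galoisRepDetEqCyclotomic E p hn σ)
    rw [Affine.Point.galoisRepDet_apply, LinearEquiv.coe_det] at h
    refine (Eq.trans ?_ h).trans ?_
    · rfl
    symm
    have : NeZero p := ⟨hp.ne_zero⟩
    refine modularCyclotomicCharacter.unique Qbar hn _ fun t ht ↦ ?_
    have htp : (t : Qbar) ^ p = 1 := by
      rw [← Units.val_pow_eq_pow_val, (mem_rootsOfUnity p t).mp ht, Units.val_one]
    have : Fact (1 < p) := ⟨hp.one_lt⟩
    show σ (t : Qbar) = ((t ^ ((1 : ZMod p)).val : Qbarˣ) : Qbar)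
    rw [ZMod.val_one, pow_one]
    exact Gal.inertia_rootOfUnity hq hA hσ hqp htp
  obtain ⟨x, hx⟩ := @exists_ne _ (EC.nontrivial_torsionBy E p hpQ) 0
  have hfx : f x ≠ 0 := by
    intro h
    have h0 := hsq x
    rw [h, zero_sub, map_neg, h, neg_zero] at h0
    exact hx (neg_eq_zero.mp h0.symm)
  have hch := LinearMap.congr_fun (Gal.cayleyHamilton_two hrank f) x
  simp only [Module.End.mul_apply, LinearMap.sub_apply, LinearMap.smul_apply,
    Module.End.one_apply, hdet, one_smul] at hch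
  have h := hsq x
  rw [map_sub, hch] at h
  have : (Affine.Point.galoisTrace ℚ E.toAffine p σ - 2) • f x = 0 := by
    rw [sub_smul, Affine.Point.galoisTrace_def, ← hf, two_smul]
    linear_combination (norm := abel) h
  exact sub_eq_zero.mp ((smul_eq_zero.mp this).resolve_right hfx)

open Classical in
/-- At a multiplicative prime `q ≠ p` the trace of Frobenius on `E[p]` is `± (q + 1)`. -/
theorem galoisTrace_frobenius_bad (hq : q.Prime) (hpq : p ≠ q) (hp2 : p ≠ 2) (hΔ0 : W.Δ ≠ 0)
    (hbad : (q : ℤ) ∣ W.Δ) (hc₄ : ¬ (q : ℤ) ∣ W.c₄) {A : ValuationSubring Qbar}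
    (hA : A.LiesOverPrime q) {σ : GQ} (hσ : A.IsFrobeniusAt σ q) :
    Affine.Point.galoisTrace ℚ (W.map (Int.castRingHom ℚ)).toAffine p σ = (q : ZMod p) + 1 ∨
    Affine.Point.galoisTrace ℚ (W.map (Int.castRingHom ℚ)).toAffine p σ = -((q : ZMod p) + 1) := by
  have hp : p.Prime := Fact.out
  have := Frey.isElliptic_mapRat hΔ0
  set E := W.map (Int.castRingHom ℚ) with hE
  have hpQ : (p : Qbar) ≠ 0 := Nat.cast_ne_zero.mpr hp.ne_zero
  have hrank := EC.finrank_torsionBy E p hpQ
  have : Finite (Submodule.torsionBy ℤ (E⁄Qbar).Point (p : ℤ)) := EC.finite_torsionBy E p hpQ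
  have : Module.Finite (ZMod p) (Submodule.torsionBy ℤ (E⁄Qbar).Point (p : ℤ)) :=
    Module.Finite.of_finite
  set f := Affine.Point.galoisRepModuleEnd (K := Qbar) ℚ E.toAffine p σ with hf
  have hdet := EC.det_frobenius p q E hq (fun h => hpq h.symm) hA hσ
  rw [← hf] at hdet
  have hv : A.valuation (W.Δ : Qbar) < 1 := (Tate.val_intCast_lt_one_iff hq hA _).2 hbad
  have hint := Tate.isInt_qbarCurve A W
  have hΔq : (Tate.qbarCurve W).Δ ≠ 0 := by simpa [Tate.qbar_Δ] using hΔ0
  have hvΔ : A.valuation (Tate.qbarCurve W).Δ < 1 := by rw [Tate.qbar_Δ]; exact hv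
  have hvc : A.valuation (Tate.qbarCurve W).c₄ = 1 := by
    rw [Tate.qbar_c₄]; exact (Tate.val_intCast_eq_one_iff hq hA _).2 hc₄
  obtain ⟨P, hP, hPd⟩ := Tate.exists_torsion_not_inE0 (p := p) (W := Tate.qbarCurve W) hint hΔq hvΔ
    hvc hp2
  -- a nonzero `p`-torsion point in the zero component
  obtain ⟨x, hx0, hx⟩ : ∃ x : Submodule.torsionBy ℤ (E⁄Qbar).Point (p : ℤ), x ≠ 0 ∧
      Tate.InE0 A (W := Tate.qbarCurve W) x.1 := by
    by_contra hno
    push Not at hno
    have hle : Module.finrank (ZMod p) (Submodule.torsionBy ℤ (E⁄Qbar).Point (p : ℤ)) ≤ 1 := by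
      refine finrank_le_one
        ⟨P, (Submodule.mem_torsionBy_iff _ _).mpr (by rw [natCast_zsmul]; exact hP)⟩ fun Q => ?_
      have hQ : p • Q.1 = 0 := by
        rw [← natCast_zsmul]; exact (Submodule.mem_torsionBy_iff _ _).mp Q.2
      obtain ⟨k, hk⟩ := Tate.exists_inE0_sub_nsmul (W := Tate.qbarCurve W) hint hΔq hvΔ hvc hp2
        hP hQ hPd
      refine ⟨(k : ZMod p), ?_⟩
      by_contra hne
      refine hno (Q - (k : ZMod p) • ⟨P, _⟩) (sub_ne_zero.mpr (Ne.symm hne)) ?_
      rw [Nat.cast_smul_eq_nsmul]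
      exact hk
    omega
  have htor : p • x.1 = 0 := by
    rw [← natCast_zsmul]; exact (Submodule.mem_torsionBy_iff _ _).mp x.2
  have hne : (q : ZMod p) ≠ 0 := by
    rw [Ne, ZMod.natCast_eq_zero_iff]
    exact fun h ↦ hpq ((Nat.prime_dvd_prime_iff_eq hp hq).mp h)
  have hch := LinearMap.congr_fun (Gal.cayleyHamilton_two hrank f) x
  simp only [Module.End.mul_apply, LinearMap.sub_apply, LinearMap.smul_apply,
    Module.End.one_apply, hdet] at hch
  rw [Affine.Point.galoisTrace_def, ← hf]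
  set t := LinearMap.trace (ZMod p) _ f
  rcases Tate.smul_eq_or_neg_of_frobenius hq hA hΔ0 hbad hc₄ hσ
    (fun h => hpq ((Nat.prime_dvd_prime_iff_eq hq Fact.out).mp h).symm) htor hx with h | h
  · have e : f x = (q : ZMod p) • x := by
      rw [Nat.cast_smul_eq_nsmul]
      exact Subtype.ext h
    rw [e, map_smul, e, smul_smul, smul_smul] at hch
    have hs : ((q : ZMod p) * q - t * q + q) • x = 0 := by
      rw [add_smul, sub_smul, hch]; abel
    left
    have := (smul_eq_zero.mp hs).resolve_right hx0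
    exact mul_left_cancel₀ hne (by linear_combination -this)
  · have e : f x = (-(q : ZMod p)) • x := by
      rw [neg_smul, Nat.cast_smul_eq_nsmul]
      exact Subtype.ext h
    rw [e, map_smul, e, smul_smul, smul_smul] at hch
    have hs : ((q : ZMod p) * q + t * q + q) • x = 0 := by
      rw [neg_mul_neg, mul_neg, neg_smul] at hch
      rw [add_smul, add_smul, hch]; abel
    right
    have := (smul_eq_zero.mp hs).resolve_right hx0
    exact mul_left_cancel₀ hne (by linear_combination this)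

end Fermat.Agent.Level
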