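import Mathlib.FieldTheory.IsAlgClosed.AlgebraicClosure
import Fermat.Agent.Attach.EigenChar
import Fermat.Agent.Attach.Eigvec
import Fermat.Agent.Attach.Point
import Fermat.Agent.Attach.Unramified
import Fermat.Agent.Gal.Compare
import Fermat.Agent.Level.Curve
import Fermat.Agent.TwoComponent.NewPart.PairSpan

/-!
# Eigenforms with the good eigenvalues of an elliptic curve

A representation attached to such a form is congruent to `E[p]`, and the eigenvalue at a further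
prime `q ∤ M` is congruent to the trace of Frobenius on `E[p]`.
-/

noncomputable section

open Polynomial ModularFormClass CongruenceSubgroup

namespace Fermat.Agent.Level

open WeierstrassCurve Fermat.Agent.Attach
open scoped WeierstrassCurve.Affine

local notation "Qbar" => AlgebraicClosure ℚ
local notation "GQ" => (AlgebraicClosure ℚ ≃ₐ[ℚ] AlgebraicClosure ℚ)

variable {W : WeierstrassCurve ℤ} {p : ℕ} [Fact p.Prime]

/-- The Frobenius polynomials of `ρ` outside `S` are those of `W`. -/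
def HasCurveTraces {R : Type} [CommRing R] [IsLocalRing R] (W : WeierstrassCurve ℤ) (S : Finset ℕ)
    (ρ : GaloisRepAdic R) : Prop :=
  ∀ ℓ : ℕ, ℓ.Prime → ℓ ∉ S → ∀ A : ValuationSubring Qbar, A.LiesOverPrime ℓ →
    ∀ σ : GQ, A.IsFrobeniusAt σ ℓ →
      LinearMap.charpoly (ρ.ρ σ) = X ^ 2 - C ((W.apOfModel ℓ : ℤ) : R) * X + C ((ℓ : R))

/-- The map `ℤ/p → k` for the residue field of a local ring containing `p` in the maximal ideal. -/
def residueCast {R : Type} [CommRing R] [IsLocalRing R]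
    (hp : (p : R) ∈ IsLocalRing.maximalIdeal R) : ZMod p →+* IsLocalRing.ResidueField R :=
  haveI : CharP (IsLocalRing.ResidueField R) p := (CharP.charP_iff_prime_eq_zero Fact.out).mpr
    ((map_natCast (IsLocalRing.residue R) p).symm.trans
      ((IsLocalRing.residue_eq_zero_iff _).mpr hp))
  ZMod.castHom dvd_rfl _

open Classical in
/-- The reduction of `ρ` has the traces of `E[p]`. -/
theorem residue_trace {R : Type} [CommRing R] [IsLocalRing R]
    (hp : (p : R) ∈ IsLocalRing.maximalIdeal R) (hΔ : W.Δ ≠ 0) {S : Finset ℕ}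
    (hS : ∀ ℓ, ℓ.Prime → ℓ ∉ S → W.IsGoodPrimeFor ℓ ∧ ℓ ≠ p) (ρ : GaloisRepAdic R)
    (hρ : HasCurveTraces W S ρ) (g : GQ) :
    IsLocalRing.residue R (ρ.trace g) = residueCast hp
      (Affine.Point.galoisTrace ℚ (W.map (Int.castRingHom ℚ)).toAffine p g) := by
  have := Frey.isElliptic_mapRat hΔ
  set k := IsLocalRing.ResidueField R
  set E := W.map (Int.castRingHom ℚ)
  let φ := residueCast hp
  let : Algebra (ZMod p) k := φ.toAlgebra
  let r₂ : ResidualGaloisRep k := (EC.residualRep E p).baseChange k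
  have key := Gal.residual_charpoly_eq_of_frobenius ρ.residual r₂ S (fun ℓ hℓ hℓS A hA σ hσ => by
    obtain ⟨hgood, hℓp⟩ := hS ℓ hℓ hℓS
    show LinearMap.charpoly ((ρ.ρ σ).baseChange k) =
      LinearMap.charpoly (((EC.residualRep E p).ρ σ).baseChange k)
    rw [LinearMap.charpoly_baseChange, LinearMap.charpoly_baseChange, hρ ℓ hℓ hℓS A hA σ hσ,
      show (EC.residualRep E p).ρ σ =
        Affine.Point.galoisRepModuleEnd (K := Qbar) ℚ E.toAffine p σ from rfl]
    have : Module.Finite (ZMod p) (Submodule.torsionBy ℤ (E⁄Qbar).Point (p : ℤ)) :=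
      haveI := EC.finite_torsionBy E p
        (Nat.cast_ne_zero (R := Qbar).mpr (Fact.out : p.Prime).ne_zero)
      Module.Finite.of_finite
    erw [EC.charpoly_frobenius W p ℓ hℓ hℓp hgood hA hσ]
    simp [Polynomial.map_pow]) g
  have hfin : Module.Finite (ZMod p) (EC.residualRep E p).V := inferInstance
  have h := ((Gal.charpoly_eq_iff ρ.residual.finrank_eq r₂.finrank_eq _ _).mp key).1
  change LinearMap.trace k _ ((ρ.ρ g).baseChange k) =
    LinearMap.trace k _ (((EC.residualRep E p).ρ g).baseChange k) at h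
  rw [LinearMap.trace_baseChange, LinearMap.trace_baseChange] at h
  exact h

variable {M : ℕ} [NeZero M]

/-- An eigencharacter with the eigenvalues `a_ℓ` of `W` has value ring mapping to any ring `O`,
compatibly with the `a_ℓ`. -/
theorem exists_range_hom {S : Set ℕ} (hMS : ∀ q, q.Prime → q ∣ M → q ∈ S)
    (χ : CuspForm.heckeAlgebra M 2 S →+* ℂ)
    (hχ : ∀ (ℓ : ℕ) (hℓ : ℓ.Prime) (hℓM : ¬ ℓ ∣ M) (hℓS : ℓ ∉ S),
      χ (CuspForm.heckeAlgebra.T hℓ hℓM hℓS) = (W.apOfModel ℓ : ℂ))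
    (O : Type) [CommRing O] :
    ∃ ι : χ.range →+* O, ∀ (ℓ : ℕ) (hℓ : ℓ.Prime) (hℓM : ¬ ℓ ∣ M) (hℓS : ℓ ∉ S),
      (ι.comp χ.rangeRestrict) (CuspForm.heckeAlgebra.T hℓ hℓM hℓS) = (W.apOfModel ℓ : O) := by
  set Z : Subring ℂ := (Int.castRingHom ℂ).range
  have hle : χ.range ≤ Z := by
    rintro _ ⟨t, rfl⟩
    exact forall_mem_of_T_mem (fun q h h' => hMS q h' h) χ Z
      (fun ℓ hℓ hℓM hℓS => ⟨W.apOfModel ℓ, (hχ ℓ hℓ hℓM hℓS).symm⟩) t
  let e : ℤ ≃+* Z := RingEquiv.ofBijective (Int.castRingHom ℂ).rangeRestrict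
    ⟨fun a b h => Int.cast_injective (α := ℂ) (congrArg Subtype.val h),
      (Int.castRingHom ℂ).rangeRestrict_surjective⟩
  refine ⟨(Int.castRingHom O).comp (e.symm.toRingHom.comp (Subring.inclusion hle)),
    fun ℓ hℓ hℓM hℓS => ?_⟩
  rw [RingHom.comp_apply, show χ.rangeRestrict (CuspForm.heckeAlgebra.T hℓ hℓM hℓS) =
    ((W.apOfModel ℓ : ℤ) : χ.range) from Subtype.ext (by simpa using hχ ℓ hℓ hℓM hℓS), map_intCast]

/-- The determinant of an attached representation is trivial on inertia at a prime `q ≠ p`. -/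
theorem det_inertia {O : Type} [CommRing O] [IsLocalRing O] [IsNoetherianRing O]
    [IsAdicComplete (IsLocalRing.maximalIdeal O) O] (hp : (p : O) ∈ IsLocalRing.maximalIdeal O)
    (I : JacobianInputs M p) {S : Finset ℕ} (hpS : p ∈ S)
    (hMS : ∀ q, q.Prime → q ∣ M → q ∈ (↑S : Set ℕ))
    (θ : CuspForm.heckeAlgebra M 2 (↑S : Set ℕ) →+* O) (ρ : GaloisRepAdic O)
    (hρ : ∀ (ℓ : ℕ) (hℓ : ℓ.Prime) (hℓN : ¬ ℓ ∣ M) (hℓS : ℓ ∉ (↑S : Set ℕ)),
      ∀ A : ValuationSubring Qbar, A.LiesOverPrime ℓ → ∀ σ : GQ, A.IsFrobeniusAt σ ℓ →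
        LinearMap.charpoly (ρ.ρ σ) =
          X ^ 2 - C (θ (CuspForm.heckeAlgebra.T hℓ hℓN hℓS)) * X + C ((ℓ : O)))
    {q : ℕ} (hq : q.Prime) (hqp : q ≠ p) {A : ValuationSubring Qbar} (hA : A.LiesOverPrime q)
    {σ : GQ} (hσ : σ ∈ A.inertiaSubgroupIn ℚ) : LinearMap.det (ρ.ρ σ) = 1 := by
  have h := (TwoComponent.joint_trace_mem hp I.model I.model I.galois I.galois dvd_rfl hpS hMS θ
    ρ hρ σ).2
  rw [show (TwoComponent.repMat ρ σ).det = LinearMap.det (ρ.ρ σ) from LinearMap.det_toMatrix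
    _ _] at h
  rw [h]
  show padicMap p _ hp ((cycPadic p σ : ℤ_[p]ˣ) : ℤ_[p]) = 1
  have e : ((cycPadic p σ : ℤ_[p]ˣ) : ℤ_[p]) = 1 := PadicInt.ext_of_toZModPow.mp fun n => by
    rw [map_one, ← cyc_eq, cyc_inertia p n hq hqp hA hσ]
  rw [e, map_one]

/-- Ring maps commute with integer polynomials. -/
theorem map_aeval_int {A B : Type*} [CommRing A] [CommRing B] (f : A →+* B) (x : A) (r : ℤ[X]) :
    f (aeval x r) = aeval (f x) r := by
  rw [aeval_def, aeval_def, hom_eval₂]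
  congr 1
  exact RingHom.ext_int _ _

/-- If the trace of Frobenius at `q ∤ M` on `E[p]` is a root of `r`, then `p` divides the constant
term of the minimal polynomial of `r(a_q(g))`. -/
theorem dvd_coeff_zero_of_congr {g : CuspForm (Gamma0 M) 2} (hg : g.IsNormalizedEigenform)
    (hΔ : W.Δ ≠ 0) {S₀ : Finset ℕ} (hMS : ∀ q, q.Prime → q ∣ M → q ∈ S₀)
    (hgood : ∀ ℓ, ℓ.Prime → ℓ ∉ S₀ → W.IsGoodPrimeFor ℓ)
    (hgW : ∀ ℓ, ℓ.Prime → ℓ ∉ S₀ → qCoeff g ℓ = (W.apOfModel ℓ : ℂ))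
    (I : JacobianInputs M p) {q : ℕ} (hq : q.Prime) (hqM : ¬ q ∣ M) (hqp : q ≠ p) (r : ℤ[X])
    (hr : ∀ A : ValuationSubring Qbar, A.LiesOverPrime q → ∀ σ : GQ, A.IsFrobeniusAt σ q →
      open Classical in
      aeval (Affine.Point.galoisTrace ℚ (W.map (Int.castRingHom ℚ)).toAffine p σ) r = 0) :
    (p : ℤ) ∣ (minpoly ℤ (aeval (qCoeff g q) r)).coeff 0 := by
  classical
  set MM := I.model
  let S : Finset ℕ := insert p S₀
  have hS : ∀ r, r.Prime → r ∣ M → r ∈ (↑S : Set ℕ) :=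
    fun r hr h => Finset.mem_insert_of_mem (hMS r hr h)
  have hpS : p ∈ S := Finset.mem_insert_self _ _
  have hout : ∀ ℓ, ℓ ∉ S → ℓ ∉ S₀ ∧ ℓ ≠ p := fun ℓ h =>
    ⟨fun h' => h (Finset.mem_insert_of_mem h'), fun h' => h (h' ▸ hpS)⟩
  obtain ⟨χS, hχS⟩ := exists_eigenChar hg hS
  obtain ⟨ι, hι⟩ := exists_range_hom (W := W) hS χS (fun ℓ hℓ hℓM hℓS => by
    rw [hχS ℓ hℓ hℓM hℓS]; exact hgW ℓ hℓ (hout ℓ hℓS).1) ℤ_[p]
  have hp : (p : ℤ_[p]) ∈ IsLocalRing.maximalIdeal ℤ_[p] := PadicInt.p_nonunit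
  obtain ⟨O, i1, i2, i3, i4, i5, i6, i7, i8, i9, hinj, ρ, hρ, -⟩ :=
    exists_galoisRep_of_inputs I hpS hS ℤ_[p] hp (ι.comp χS.rangeRestrict)
  have hpO : (p : O) ∈ IsLocalRing.maximalIdeal O := natCast_mem_maximalIdeal' hp
  let θ : CuspForm.heckeAlgebra M 2 (↑S : Set ℕ) →+* O :=
    (algebraMap ℤ_[p] O).comp (ι.comp χS.rangeRestrict)
  have hθ : ∀ (ℓ : ℕ) (hℓ : ℓ.Prime) (hℓM : ¬ ℓ ∣ M) (hℓS : ℓ ∉ (↑S : Set ℕ)),
      θ (CuspForm.heckeAlgebra.T hℓ hℓM hℓS) = (W.apOfModel ℓ : O) := fun ℓ hℓ hℓM hℓS => by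
    rw [RingHom.comp_apply, hι ℓ hℓ hℓM hℓS, map_intCast]
  -- the character of the anemic algebra in an algebraically closed field
  have hS0 : ∀ r, r.Prime → r ∣ M → r ∈ ({r | r ∣ M} : Set ℕ) := fun r _ h => h
  obtain ⟨χ, hχ⟩ := exists_eigenChar hg hS0
  let Qc := algebraicClosure ℚ ℂ
  have hint : ∀ t, IsIntegral ℤ (χ t) := fun t =>
    (isIntegral_of_faithful MM.hecke MM.hecke_injective t).map χ.toIntAlgHom
  let χQ : AnemicAlg M →+* Qc := χ.codRestrict Qc fun t =>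
    mem_algebraicClosure_iff.mpr ((hint t).tower_top (A := ℚ)).isAlgebraic
  let F := FractionRing O
  let K := AlgebraicClosure F
  have : CharZero F := charZero_of_injective_algebraMap (IsFractionRing.injective O F)
  have : Algebra.IsAlgebraic ℚ Qc := algebraicClosure.isAlgebraic ℚ ℂ
  let e : Qc →ₐ[ℚ] K := IsAlgClosed.lift
  let j : O →+* K := (algebraMap F K).comp (algebraMap O F)
  have hj : Function.Injective j :=
    (algebraMap F K).injective.comp (IsFractionRing.injective O F)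
  obtain ⟨v, hv0, hv⟩ := exists_eigvec MM.mat MM.mat_injective (e.toRingHom.comp χQ)
  have hv' : ∀ (ℓ : ℕ) (hℓ : ℓ.Prime) (hℓM : ¬ ℓ ∣ M),
      ((MM.mat (CuspForm.heckeAlgebra.T hℓ hℓM hℓM)).map (Int.castRingHom K)).mulVec v =
        e (χQ (CuspForm.heckeAlgebra.T hℓ hℓM hℓM)) • v := fun ℓ hℓ hℓM => hv _
  have hscal : ∀ x ∈ TwoComponent.jointHecke MM MM hS dvd_rfl θ,
      (x.1.map j).mulVec v = j x.2.2 • v := by
    intro x hx
    induction hx using Algebra.adjoin_induction with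
    | mem x hx =>
      obtain ⟨ℓ, hℓ, hℓM, hℓS, rfl⟩ := hx
      rw [show (MM.matO O hS (CuspForm.heckeAlgebra.T hℓ hℓM hℓS)).map j =
        (MM.mat (CuspForm.heckeAlgebra.T hℓ hℓM hℓM)).map (Int.castRingHom K) from
          Matrix.ext fun a b => map_intCast j _, hv' ℓ hℓ hℓM, hθ ℓ hℓ hℓM hℓS, map_intCast]
      congr 1
      have e1 : χQ (CuspForm.heckeAlgebra.T hℓ hℓM hℓM) = ((W.apOfModel ℓ : ℤ) : Qc) :=
        Subtype.ext (by
          show χ _ = _
          rw [hχ ℓ hℓ hℓM hℓM, hgW ℓ hℓ (hout ℓ hℓS).1]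
          push_cast
          rfl)
      rw [e1, map_intCast]
    | algebraMap a => simp [Algebra.algebraMap_eq_smul_one, Matrix.map_smul', Matrix.smul_mulVec]
    | add x y _ _ hx hy => simp [Matrix.map_add, Matrix.add_mulVec, hx, hy, add_smul]
    | mul x y _ _ hx hy =>
      simp [Matrix.map_mul, ← Matrix.mulVec_mulVec, Matrix.mulVec_smul, hx, hy, smul_smul, mul_comm]
  -- Frobenius at `q`
  obtain ⟨A, σ, hA, hσ⟩ := Gal.exists_liesOverPrime_isFrobeniusAt hq
  have hmem := (TwoComponent.joint_trace_mem hpO MM MM I.galois I.galois dvd_rfl hpS hS θ ρ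
    (fun ℓ hℓ hℓN hℓS => hρ ℓ hℓ hℓN hℓS) σ).1
  rw [(MM.repO_frobenius hpO I.galois hS0 hq hqM hqM hqp hA hσ).2] at hmem
  have h := hscal _ hmem
  dsimp only at h
  rw [show (MM.matO O hS0 (CuspForm.heckeAlgebra.T hq hqM hqM)).map j =
    (MM.mat (CuspForm.heckeAlgebra.T hq hqM hqM)).map (Int.castRingHom K) from
      Matrix.ext fun a b => map_intCast j _, hv' q hq hqM] at h
  have heq : e (χQ (CuspForm.heckeAlgebra.T hq hqM hqM)) = j (ρ.trace σ) :=
    smul_left_injective K hv0 h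
  -- reduce the relation
  set x : ℂ := aeval (qCoeff g q) r with hxdef
  set c := χQ (CuspForm.heckeAlgebra.T hq hqM hqM)
  have hc : (c : ℂ) = qCoeff g q := hχ q hq hqM hqM
  set P := minpoly ℤ x
  have hxQ : ((aeval c r : Qc) : ℂ) = x := by
    rw [hxdef, ← hc]
    exact map_aeval_int (SubringClass.subtype Qc) c r
  have hP0 : aeval (aeval c r) P = 0 := by
    apply Subtype.val_injective
    refine Eq.trans (map_aeval_int (SubringClass.subtype Qc) (aeval c r) P) ?_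
    rw [show (SubringClass.subtype Qc) (aeval c r) = x from hxQ]
    exact minpoly.aeval ℤ x
  have hPO : aeval (aeval (ρ.trace σ) r) P = 0 := by
    apply hj
    rw [map_zero, map_aeval_int j, map_aeval_int j, ← heq]
    rw [show e c = e.toRingHom c from rfl, ← map_aeval_int e.toRingHom, ← map_aeval_int e.toRingHom,
      hP0, map_zero]
  have hred := congrArg (IsLocalRing.residue O) hPO
  rw [map_zero, map_aeval_int, map_aeval_int] at hred
  rw [residue_trace hpO hΔ (fun ℓ hℓ hℓS => ⟨hgood ℓ hℓ (hout ℓ hℓS).1, (hout ℓ hℓS).2⟩) ρ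
    (fun ℓ hℓ hℓS A' hA' σ' hσ' => by
      rw [hρ ℓ hℓ (fun h => hℓS (hS ℓ hℓ h)) hℓS A' hA' σ' hσ']
      show X ^ 2 - C (θ _) * X + _ = _
      rw [hθ]) σ] at hred
  rw [← map_aeval_int (residueCast hpO), hr A hA σ hσ, map_zero, ← coeff_zero_eq_aeval_zero',
    eq_intCast] at hred
  have : CharP (IsLocalRing.ResidueField O) p :=
    charP_of_injective_ringHom (residueCast hpO).injective p
  exact (CharP.intCast_eq_zero_iff _ p _).mp hred

end Fermat.Agent.Level
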