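import Mathlib.Algebra.CharP.Lemmas
import Mathlib.NumberTheory.Basic
import Fermat.Prelude.Def_GaloisRep_LocalConditions
import Fermat.Agent.Attach.PowTrace
import Fermat.Agent.Attach.Unramified
import Fermat.Agent.TW.Tame

/-!
# Inertia at `q` with residually unipotent image is unipotent when `p ∤ q² - 1`
-/

noncomputable section

namespace Fermat.Agent.Level

open Fermat.Agent.Attach IsLocalRing Polynomial

local notation "Qbar" => AlgebraicClosure ℚ
local notation "GQ" => (AlgebraicClosure ℚ ≃ₐ[ℚ] AlgebraicClosure ℚ)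

/-- A unipotent element of a ring where `p` is nilpotent has `p`-power order. -/
theorem exists_pow_prime_pow_eq_one {R : Type*} [Ring R] {p : ℕ} (hp : p.Prime) {n : ℕ}
    (hp0 : (p : R) ^ n = 0) {u : R} {d : ℕ} (hu : u ^ d = 0) : ∃ k, (1 + u) ^ p ^ k = 1 := by
  obtain ⟨r, hr⟩ := (Commute.one_left u).exists_add_pow_prime_pow_eq hp d
  have hud : u ^ p ^ d = 0 := pow_eq_zero_of_le (Nat.lt_pow_self hp.one_lt).le hu
  rw [one_pow, hud, add_zero, mul_one, mul_assoc] at hr
  set x : R := u * r with hx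
  obtain ⟨g, hg⟩ := dvd_sub_pow_of_dvd_sub (R := ℤ[X]) (p := p) (a := 1 + (p : ℤ[X]) * X) (b := 1)
    ⟨X, by ring⟩ n
  have h := congrArg (aeval (R := ℤ) x) hg
  rw [one_pow] at h
  simp only [map_sub, map_pow, map_add, map_mul, map_one, map_natCast, aeval_X] at h
  rw [pow_succ, hp0, zero_mul, zero_mul] at h
  exact ⟨d + n, by rw [pow_add, pow_mul, hr]; exact sub_eq_zero.mp h⟩

/-- The trace of the `k`-th power of a matrix of determinant `1` and trace `2 + x` is `2 + k² x`
modulo `x²`. -/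
theorem powTrace_two_add {R : Type*} [CommRing R] (x : R) (k : ℕ) :
    ∃ r, powTrace (2 + x) 1 k = 2 + (k : R) ^ 2 * x + x ^ 2 * r := by
  induction k using Nat.strong_induction_on with
  | _ k ih =>
    match k with
    | 0 => exact ⟨0, by simp [powTrace]⟩
    | 1 => exact ⟨0, by simp [powTrace]⟩
    | k + 2 =>
      obtain ⟨a, ha⟩ := ih (k + 1) (by omega)
      obtain ⟨b, hb⟩ := ih k (by omega)
      refine ⟨((k : R) + 1) ^ 2 + (2 + x) * a - b, ?_⟩
      simp only [powTrace, ha, hb]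
      push_cast
      ring

/-- A trace `t ≡ 2` fixed by taking `q`-th powers equals `2` if `q² - 1` is a unit. -/
theorem eq_two_of_powTrace_eq {R : Type*} [CommRing R] [IsLocalRing R] {t : R} {q : ℕ}
    (hq : IsUnit ((q : R) ^ 2 - 1)) (ht : t - 2 ∈ maximalIdeal R) (h : powTrace t 1 q = t) :
    t = 2 := by
  obtain ⟨x, rfl⟩ : ∃ x, t = 2 + x := ⟨t - 2, by ring⟩
  rw [add_sub_cancel_left] at ht
  obtain ⟨r, hr⟩ := powTrace_two_add x q
  have h0 : x * ((q : R) ^ 2 - 1 + x * r) = 0 := by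
    rw [hr] at h
    linear_combination h
  have hu : IsUnit ((q : R) ^ 2 - 1 + x * r) := by
    by_contra hn
    refine (IsLocalRing.mem_maximalIdeal _).mp ?_ hq
    have hm : ((q : R) ^ 2 - 1 + x * r) - x * r ∈ maximalIdeal R :=
      sub_mem hn (Ideal.mul_mem_right r _ ht)
    simpa using hm
  rw [hu.mul_left_eq_zero.mp h0, add_zero]

variable {R : Type} [CommRing R] [IsLocalRing R] {p q : ℕ}

/-- Inertia at `q ≠ p` with determinant one and residual trace two acts unipotently,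
if `p ∤ q² - 1`. -/
theorem isUnipotentOnInertiaAt_of_residual [IsHausdorff (maximalIdeal R) R] (ρ : GaloisRepAdic R)
    (hp : p.Prime) (hpR : (p : R) ∈ maximalIdeal R) (hq : q.Prime) (hpq : p ≠ q)
    (hpq2 : IsUnit ((q : R) ^ 2 - 1))
    (hdet : ∀ A : ValuationSubring Qbar, A.LiesOverPrime q → ∀ σ ∈ A.inertiaSubgroupIn ℚ,
      LinearMap.det (ρ.ρ σ) = 1)
    (htr : ∀ A : ValuationSubring Qbar, A.LiesOverPrime q → ∀ σ ∈ A.inertiaSubgroupIn ℚ,
      ρ.trace σ - 2 ∈ maximalIdeal R) :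
    ρ.IsUnipotentOnInertiaAt q := by
  intro A hA σ hσ
  set Rm := repMatrix ρ with hRm
  have hd : ∀ τ ∈ A.inertiaSubgroupIn ℚ, (Rm τ).det = 1 := fun τ hτ => by
    rw [← hdet A hA τ hτ]
    exact LinearMap.det_toMatrix _ _
  have ht : ∀ τ, (Rm τ).trace = ρ.trace τ := repMatrix_trace ρ
  -- the Frobenius relation at every finite level
  obtain ⟨Φ, hΦ⟩ : ∃ Φ : GQ, A.IsFrobeniusAt Φ q := Gal.exists_isFrobeniusAt hq hA
  have key : ∀ n, powTrace (ρ.trace σ) 1 q - ρ.trace σ ∈ maximalIdeal R ^ n := by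
    intro n
    set π := Ideal.Quotient.mk (maximalIdeal R ^ n)
    let P : GQ →* Matrix (Fin 2) (Fin 2) (R ⧸ maximalIdeal R ^ n) :=
      π.mapMatrix.toMonoidHom.comp Rm
    obtain ⟨L, hL, hcont⟩ := repMatrix_continuous ρ n
    have hL1 : ∀ τ : GQ, (∀ x ∈ L, τ x = x) → P.toHomUnits τ = 1 := fun τ hτ => by
      refine Units.ext ?_
      ext i j
      show π (Rm τ i j) = (1 : Matrix (Fin 2) (Fin 2) (R ⧸ maximalIdeal R ^ n)) i j
      rw [← π.mapMatrix.map_one]
      exact Ideal.Quotient.eq.mpr (hcont τ hτ i j)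
    have hpn : ((p : ℕ) : R ⧸ maximalIdeal R ^ n) ^ n = 0 := by
      rw [← map_natCast π, ← map_pow, Ideal.Quotient.eq_zero_iff_mem]
      exact Ideal.pow_mem_pow hpR n
    have hpg : ∀ τ ∈ A.inertiaSubgroupIn ℚ, ∃ k : ℕ, P.toHomUnits τ ^ p ^ k = 1 := by
      intro τ hτ
      have hsq : (Rm τ - 1) ^ 2 = (ρ.trace τ - 2) • Rm τ := by
        rw [← ht τ]
        have h2 : Rm τ * Rm τ = (Rm τ).trace • Rm τ - (Rm τ).det • 1 := by
          ext i j
          fin_cases i <;> fin_cases j <;>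
            simp [Matrix.mul_apply, Fin.sum_univ_two, Matrix.trace_fin_two,
              Matrix.det_fin_two] <;> ring
        rw [hd τ hτ, one_smul] at h2
        rw [pow_two, sub_mul, mul_sub, one_mul, h2, mul_one, sub_smul, two_smul]
        abel
      have hnil : (P τ - 1) ^ (2 * n) = 0 := by
        have e : P τ - 1 = π.mapMatrix (Rm τ - 1) := by
          rw [map_sub, map_one]; rfl
        rw [pow_mul, e, ← map_pow, hsq, ← map_pow, _root_.smul_pow, RingHom.mapMatrix_apply]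
        ext i j
        rw [Matrix.map_apply, Matrix.smul_apply, Matrix.zero_apply, Ideal.Quotient.eq_zero_iff_mem]
        exact Ideal.mul_mem_right _ _ (Ideal.pow_mem_pow (htr A hA τ hτ) n)
      have hp0 : ((p : ℕ) : Matrix (Fin 2) (Fin 2) (R ⧸ maximalIdeal R ^ n)) ^ n = 0 := by
        rw [← map_natCast (Matrix.scalar (Fin 2)), ← map_pow, hpn, map_zero]
      obtain ⟨k, hk⟩ := exists_pow_prime_pow_eq_one hp hp0 hnil
      refine ⟨k, Units.ext ?_⟩
      rw [Units.val_pow_eq_pow_val, Units.val_one]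
      refine (congrArg (· ^ p ^ k) ?_).trans hk
      show P τ = _
      rw [add_sub_cancel]
    obtain ⟨hfr, -⟩ := TW.exists_inertia_generator_frobenius hq hp hpq hA P.toHomUnits L hL1 hpg
    have h1 := congrArg Units.val (hfr Φ hΦ σ hσ)
    rw [Units.val_pow_eq_pow_val] at h1
    change P (Φ * σ * Φ⁻¹) = P σ ^ q at h1
    have h2 := congrArg Matrix.trace h1
    have h3 : P σ ^ q = π.mapMatrix (Rm σ ^ q) := (map_pow π.mapMatrix _ _).symm
    rw [h3, map_mul, map_mul, Matrix.trace_mul_comm, ← mul_assoc, ← map_mul, inv_mul_cancel,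
      map_one, one_mul] at h2
    change (π.mapMatrix (Rm σ)).trace = _ at h2
    rw [RingHom.mapMatrix_apply, RingHom.mapMatrix_apply, ← AddMonoidHom.map_trace π,
      ← AddMonoidHom.map_trace π, trace_pow_eq_powTrace _ (by rw [hd σ hσ]; exact isUnit_one),
      hd σ hσ, ht] at h2
    exact Ideal.Quotient.eq.mp h2.symm
  have h0 : powTrace (ρ.trace σ) 1 q = ρ.trace σ := sub_eq_zero.mp
    (IsHausdorff.haus ‹_› _ fun n => by
      rw [SModEq.zero, smul_eq_mul, Ideal.mul_top]; exact key n)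
  have h2 := eq_two_of_powTrace_eq hpq2 (htr A hA σ hσ) h0
  rw [Gal.charpoly_fin_two' ρ.finrank_eq, hdet A hA σ hσ]
  show X ^ 2 - C (ρ.trace σ) * X + C 1 = _
  rw [h2, map_one, map_ofNat]
  ring

end Fermat.Agent.Level
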