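import Mathlib.Data.Nat.Squarefree
import Fermat.Prelude.Def_FLTPrelim_ModularRep
import Fermat.Prelude.Def_WeierstrassCurve_ConductorLevel
import Fermat.Agent.Attach.Inputs
import Fermat.Agent.Level.Compare
import Fermat.Agent.Level.Unipotent
import Fermat.Agent.SquareLevel.Glue
import Fermat.Agent.TwoComponent.NewPart.Bound
import Fermat.Agent.TwoComponent.NewPart.Geo
import Fermat.Agent.TwoComponent.NewPart.Main

/-!
# The level of a semistable modular curve drops to the product of its bad primes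

Descend to a newform, then compare its representations with `E[p]` for large auxiliary `p`.
-/

noncomputable section

open Polynomial ModularFormClass CongruenceSubgroup

namespace Fermat.Agent.Level

open WeierstrassCurve Fermat.Agent.Attach
open scoped WeierstrassCurve.Affine

local notation "Qbar" => AlgebraicClosure ℚ
local notation "GQ" => (AlgebraicClosure ℚ ≃ₐ[ℚ] AlgebraicClosure ℚ)

/-- The Jacobian inputs exist. -/
theorem nonempty_inputs (N p : ℕ) [NeZero N] [Fact p.Prime] : Nonempty (JacobianInputs N p) :=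
  nonempty_jacobianInputs N p

/-- An algebraic integer whose minimal polynomial has constant term divisible by infinitely many
primes is zero. -/
theorem eq_zero_of_forall_dvd {x : ℂ} (hx : IsIntegral ℤ x) (B : ℕ)
    (h : ∀ p : ℕ, p.Prime → B ≤ p → (p : ℤ) ∣ (minpoly ℤ x).coeff 0) : x = 0 := by
  by_contra hne
  have h0 : (minpoly ℤ x).coeff 0 ≠ 0 := fun h => by
    refine minpoly.coeff_zero_ne_zero (hx.tower_top (A := ℚ)) hne ?_
    rw [minpoly.isIntegrallyClosed_eq_field_fractions' ℚ hx, coeff_map, h, map_zero]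
  obtain ⟨p, hBp, hp⟩ := Nat.exists_infinite_primes (B + ((minpoly ℤ x).coeff 0).natAbs + 1)
  have h2 := Nat.le_of_dvd (Int.natAbs_pos.mpr h0) (Int.natCast_dvd.mp (h p hp (by omega)))
  omega

/-- A newform with the eigenvalues of `W` at almost all primes. -/
theorem exists_newform {W : WeierstrassCurve ℤ} {N : ℕ} [NeZero N]
    (hN : W.IsModularModelOfLevel N) :
    ∃ M : ℕ, M ∣ N ∧ ∃ g : CuspForm (Gamma0 M) 2, g.IsNewform ∧
      ∀ ℓ : ℕ, ℓ.Prime → W.IsGoodPrimeFor ℓ → ¬ ℓ ∣ N →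
        qCoeff g ℓ = (W.apOfModel ℓ : ℂ) := by
  classical
  let P : ℕ → Prop := fun M => M ∣ N ∧ ∃ g : CuspForm (Gamma0 M) 2, g.IsNormalizedEigenform ∧
    ∀ ℓ : ℕ, ℓ.Prime → W.IsGoodPrimeFor ℓ → ¬ ℓ ∣ N → qCoeff g ℓ = (W.apOfModel ℓ : ℂ)
  have hex : ∃ M, P M := ⟨N, dvd_rfl, hN⟩
  obtain ⟨hM, g, hg, hgW⟩ := Nat.find_spec hex
  refine ⟨Nat.find hex, hM, g, ⟨hg, fun M' hM' hne hocc => ?_⟩, hgW⟩
  obtain ⟨g', hg', hg'g⟩ := hocc
  have hpos : 0 < Nat.find hex := Nat.pos_of_dvd_of_pos hM (NeZero.pos N)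
  refine Nat.find_min hex (lt_of_le_of_ne (Nat.le_of_dvd hpos hM') hne) ⟨hM'.trans hM, g', hg', ?_⟩
  exact fun ℓ hℓ hgood hℓN => by
    rw [hg'g ℓ hℓ fun h => hℓN (h.trans hM), hgW ℓ hℓ hgood hℓN]

variable {W : WeierstrassCurve ℤ} {M : ℕ} [NeZero M] {g : CuspForm (Gamma0 M) 2}
  {S₀ : Finset ℕ}

/-- If for all large `p` the trace of Frobenius at `q ∤ M` on `E[p]` is a root of `r`, so is the
eigenvalue at `q`. -/
theorem aeval_qCoeff_eq_zero (hg : g.IsNormalizedEigenform) (hΔ : W.Δ ≠ 0)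
    (hMS : ∀ q, q.Prime → q ∣ M → q ∈ S₀)
    (hgood : ∀ ℓ, ℓ.Prime → ℓ ∉ S₀ → W.IsGoodPrimeFor ℓ)
    (hgW : ∀ ℓ, ℓ.Prime → ℓ ∉ S₀ → qCoeff g ℓ = (W.apOfModel ℓ : ℂ))
    {q : ℕ} (hq : q.Prime) (hqM : ¬ q ∣ M) (r : ℤ[X])
    (hr : ∀ (p : ℕ) [Fact p.Prime], p ≠ q → p ≠ 2 →
      ∀ A : ValuationSubring Qbar, A.LiesOverPrime q → ∀ σ : GQ, A.IsFrobeniusAt σ q →
      open Classical in
      aeval (Affine.Point.galoisTrace ℚ (W.map (Int.castRingHom ℚ)).toAffine p σ) r = 0) :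
    aeval (qCoeff g q) r = 0 := by
  obtain ⟨χ, hχ⟩ := exists_eigenChar hg (S := {r | r ∣ M}) (fun _ _ h => h)
  have hint : IsIntegral ℤ (qCoeff g q) := by
    have : Fact (Nat.Prime 2) := ⟨Nat.prime_two⟩
    obtain ⟨I⟩ := nonempty_inputs M 2
    rw [← hχ q hq hqM hqM]
    exact (isIntegral_of_faithful I.model.hecke I.model.hecke_injective _).map χ.toIntAlgHom
  refine eq_zero_of_forall_dvd ?_ (q + 3) fun p hp hBp => ?_
  · exact IsIntegral.of_mem_of_fg _ hint.fg_adjoin_singleton _ (aeval_mem_adjoin_singleton ℤ _)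
  · have : Fact p.Prime := ⟨hp⟩
    obtain ⟨I⟩ := nonempty_inputs M p
    exact dvd_coeff_zero_of_congr hg hΔ hMS hgood hgW I hq hqM (by omega) r
      fun A hA σ hσ => hr p (by omega) (by omega) A hA σ hσ

/-- A bad prime divides the level. -/
theorem dvd_level_of_bad (hg : g.IsNormalizedEigenform) (hΔ : W.Δ ≠ 0)
    (hss : W.IsSemistableModel) (hMS : ∀ q, q.Prime → q ∣ M → q ∈ S₀)
    (hgood : ∀ ℓ, ℓ.Prime → ℓ ∉ S₀ → W.IsGoodPrimeFor ℓ)
    (hgW : ∀ ℓ, ℓ.Prime → ℓ ∉ S₀ → qCoeff g ℓ = (W.apOfModel ℓ : ℂ))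
    {q : ℕ} (hq : q.Prime) (hbad : (q : ℤ) ∣ W.Δ) : q ∣ M := by
  classical
  by_contra hqM
  have h := aeval_qCoeff_eq_zero hg hΔ hMS hgood hgW hq hqM
    (X ^ 2 - C (((q : ℤ) + 1) ^ 2)) (fun p _ hpq hp2 A hA σ hσ => by
      rcases galoisTrace_frobenius_bad W hq hpq hp2 hΔ hbad (hss q hq hbad) hA hσ with e | e <;>
      · rw [e]
        simp only [map_sub, map_pow, aeval_X, map_intCast, eq_intCast]
        push_cast
        ring)
  simp only [map_sub, map_pow, aeval_X, map_intCast, eq_intCast] at h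
  push_cast at h
  refine hg.ne_zero (TwoComponent.eq_zero_of_heckeTLin_eq hq hqM g (c := qCoeff g q) ?_
    (heckeTLin_apply_eigenform hg hq hqM))
  rcases eq_or_eq_neg_of_sq_eq_sq _ _ (sub_eq_zero.mp h) with e | e <;> rw [e]
  · rw [← Nat.cast_one, ← Nat.cast_add, Complex.norm_natCast]; push_cast; rfl
  · rw [norm_neg, ← Nat.cast_one, ← Nat.cast_add, Complex.norm_natCast]; push_cast; rfl

/-- At a good prime outside the level the eigenvalue is `a_q`. -/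
theorem qCoeff_eq_apOfModel (hg : g.IsNormalizedEigenform) (hΔ : W.Δ ≠ 0)
    (hMS : ∀ q, q.Prime → q ∣ M → q ∈ S₀)
    (hgood : ∀ ℓ, ℓ.Prime → ℓ ∉ S₀ → W.IsGoodPrimeFor ℓ)
    (hgW : ∀ ℓ, ℓ.Prime → ℓ ∉ S₀ → qCoeff g ℓ = (W.apOfModel ℓ : ℂ))
    {q : ℕ} (hq : q.Prime) (hqM : ¬ q ∣ M) (hqW : W.IsGoodPrimeFor q) :
    qCoeff g q = (W.apOfModel q : ℂ) := by
  classical
  have h := aeval_qCoeff_eq_zero hg hΔ hMS hgood hgW hq hqM
    (X - C (W.apOfModel q)) (fun p _ hpq hp2 A hA σ hσ => by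
      rw [EC.galoisTrace_frobenius W p q hq hpq.symm hqW hA hσ]
      simp)
  simp only [map_sub, aeval_X, map_intCast, eq_intCast] at h
  exact sub_eq_zero.mp h

/-- The eigencharacter of `g` away from `S₀ ∪ {p}`, with a map of its value ring to `ℤ_[p]` sending
`T_ℓ` to `a_ℓ(W)`. -/
theorem exists_char_data (hg : g.IsNormalizedEigenform)
    (hMS : ∀ q, q.Prime → q ∣ M → q ∈ S₀)
    (hgW : ∀ ℓ, ℓ.Prime → ℓ ∉ S₀ → qCoeff g ℓ = (W.apOfModel ℓ : ℂ))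
    (p : ℕ) [Fact p.Prime] :
    ∃ χ : CuspForm.heckeAlgebra M 2 (↑(insert p S₀) : Set ℕ) →+* ℂ,
      (∀ (ℓ : ℕ) (hℓ : ℓ.Prime) (hℓM : ¬ ℓ ∣ M) (hℓS : ℓ ∉ (↑(insert p S₀) : Set ℕ)),
        χ (CuspForm.heckeAlgebra.T hℓ hℓM hℓS) = qCoeff g ℓ) ∧
      ∃ ι : χ.range →+* ℤ_[p],
        ∀ (ℓ : ℕ) (hℓ : ℓ.Prime) (hℓM : ¬ ℓ ∣ M) (hℓS : ℓ ∉ (↑(insert p S₀) : Set ℕ)),
          (ι.comp χ.rangeRestrict) (CuspForm.heckeAlgebra.T hℓ hℓM hℓS) =
            (W.apOfModel ℓ : ℤ_[p]) := by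
  obtain ⟨χ, hχ⟩ := exists_eigenChar hg (S := (↑(insert p S₀) : Set ℕ))
    (fun q hq h => Finset.mem_insert_of_mem (hMS q hq h))
  exact ⟨χ, hχ, exists_range_hom (fun q hq h => Finset.mem_insert_of_mem (hMS q hq h)) χ
    (fun ℓ hℓ hℓM hℓS => by
      rw [hχ ℓ hℓ hℓM hℓS]
      exact hgW ℓ hℓ fun h => hℓS (Finset.mem_insert_of_mem h)) ℤ_[p]⟩

/-- A prime of good reduction of `W` dividing the level divides it at least twice. -/
theorem not_exactly_dvd_of_good (hg : g.IsNewform) (hΔ : W.Δ ≠ 0)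
    (hMS : ∀ q, q.Prime → q ∣ M → q ∈ S₀)
    (hgood : ∀ ℓ, ℓ.Prime → ℓ ∉ S₀ → W.IsGoodPrimeFor ℓ)
    (hgW : ∀ ℓ, ℓ.Prime → ℓ ∉ S₀ → qCoeff g ℓ = (W.apOfModel ℓ : ℂ))
    {q : ℕ} (hq : q.Prime) (hqW : W.IsGoodPrimeFor q) (hqM : q ∣ M) : q ^ 2 ∣ M := by
  classical
  by_contra hq2
  obtain ⟨p, hpB, hp⟩ := Nat.exists_infinite_primes (3 * q + 3)
  have : Fact p.Prime := ⟨hp⟩
  obtain ⟨χ, hχ, ι, hι⟩ := exists_char_data hg.1 hMS hgW p
  have hp' : (p : ℤ_[p]) ∈ IsLocalRing.maximalIdeal ℤ_[p] := PadicInt.p_nonunit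
  obtain ⟨O, i1, i2, i3, i4, i5, i6, i7, i8, i9, hinj, ρ, hρ, hρq⟩ :=
    TwoComponent.exists_galoisRepAdic_of_inputs
      (fun N p _ _ => (nonempty_inputs N p).some.galois)
      (fun N q p _ _ _ hq hqN hqp => TwoComponent.frobeniusImageBound N q p hq hqN hqp)
      hg p (insert p S₀) ℤ_[p] hp' χ hχ ι (Finset.mem_insert_self _ _)
      (fun q hq h => Finset.mem_insert_of_mem (hMS q hq h))
  have hpO : (p : O) ∈ IsLocalRing.maximalIdeal O := natCast_mem_maximalIdeal' hp'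
  have hcurve : HasCurveTraces W (insert p S₀) ρ := fun ℓ hℓ hℓS A hA σ hσ => by
    have hℓM : ¬ ℓ ∣ M := fun h => hℓS (Finset.mem_insert_of_mem (hMS ℓ hℓ h))
    rw [hρ ℓ hℓ hℓM hℓS A hA σ hσ, hι ℓ hℓ hℓM hℓS, map_intCast]
  obtain ⟨A, σ, hA, hσ⟩ := Gal.exists_liesOverPrime_isFrobeniusAt hq
  have htr := residue_trace hpO hΔ (fun ℓ hℓ hℓS => ⟨hgood ℓ hℓ fun h =>
    hℓS (Finset.mem_insert_of_mem h), fun h => hℓS (h ▸ Finset.mem_insert_self _ _)⟩) ρ hcurve σ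
  rw [EC.galoisTrace_frobenius W p q hq (by omega) hqW hA hσ, map_intCast] at htr
  have : CharP (IsLocalRing.ResidueField O) p :=
    charP_of_injective_ringHom (residueCast hpO).injective p
  have hb := abs_le.mp (abs_apOfModel_le W hq hqW)
  have hcp := hρq q hq (by omega) hqM hq2 A hA σ hσ
  rw [Gal.charpoly_fin_two' ρ.finrank_eq] at hcp
  obtain ⟨c, hc, hcq⟩ : ∃ c : ℤ, ρ.trace σ = (c : O) ∧ c.natAbs = q + 1 := by
    rw [show ρ.trace σ = LinearMap.trace O ρ.V (ρ.ρ σ) from rfl]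
    rcases hcp with h | h
    on_goal 1 => refine ⟨(q : ℤ) + 1, ?_, by omega⟩
    on_goal 2 => refine ⟨-((q : ℤ) + 1), ?_, by omega⟩
    all_goals
      have h1 := congrArg (fun P : O[X] => P.coeff 1) h
      simp [coeff_X_pow, coeff_C] at h1
      push_cast
      linear_combination -h1
  rw [hc, map_intCast] at htr
  have hd := (CharP.intCast_eq_intCast (IsLocalRing.ResidueField O) p).mp htr
  rw [Int.modEq_iff_dvd] at hd
  have h := Int.eq_zero_of_abs_lt_dvd hd (by rw [abs_lt]; omega)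
  omega

/-- If `q³ ∤ M` then `q² ∤ M`, given the geometric input at `q² ∥ M`. -/
theorem not_sq_dvd
    (hgeo : ∀ (N q : ℕ) [NeZero N] [NeZero q], q.Prime → q ∣ N → ¬ q ^ 2 ∣ N →
      SquareLevel.InertiaFixedBounded N q)
    (hg : g.IsNewform) (hΔ : W.Δ ≠ 0) (hss : W.IsSemistableModel)
    (hMS : ∀ q, q.Prime → q ∣ M → q ∈ S₀)
    (hgood : ∀ ℓ, ℓ.Prime → ℓ ∉ S₀ → W.IsGoodPrimeFor ℓ)
    (hgW : ∀ ℓ, ℓ.Prime → ℓ ∉ S₀ → qCoeff g ℓ = (W.apOfModel ℓ : ℂ))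
    {q : ℕ} (hq : q.Prime) (hq3 : ¬ q ^ 3 ∣ M) : ¬ q ^ 2 ∣ M := by
  classical
  intro hq2
  obtain ⟨p, hpB, hp⟩ := Nat.exists_infinite_primes (q ^ 2 + 3)
  have : Fact p.Prime := ⟨hp⟩
  have hqq : q ≤ q ^ 2 := Nat.le_self_pow two_ne_zero q
  obtain ⟨χ, hχ, ι, hι⟩ := exists_char_data hg.1 hMS hgW p
  have hp' : (p : ℤ_[p]) ∈ IsLocalRing.maximalIdeal ℤ_[p] := PadicInt.p_nonunit
  obtain ⟨O, i1, i2, i3, i4, i5, i6, i7, i8, i9, hinj, ρ, hρ, hρq⟩ :=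
    SquareLevel.exists_rep_not_unipotent (p := p) (fun N _ p _ => nonempty_inputs N p) hgeo
      hg (insert p S₀) (Finset.mem_insert_self _ _)
      (fun q hq h => Finset.mem_insert_of_mem (hMS q hq h)) ℤ_[p] hp' χ hχ ι
  have hpO : (p : O) ∈ IsLocalRing.maximalIdeal O := natCast_mem_maximalIdeal' hp'
  have hcurve : HasCurveTraces W (insert p S₀) ρ := fun ℓ hℓ hℓS A hA σ hσ => by
    have hℓM : ¬ ℓ ∣ M := fun h => hℓS (Finset.mem_insert_of_mem (hMS ℓ hℓ h))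
    rw [hρ ℓ hℓ hℓM hℓS A hA σ hσ, hι ℓ hℓ hℓM hℓS, map_intCast]
  have hfac : M.factorization q = 2 := by
    rw [hq.pow_dvd_iff_le_factorization (NeZero.ne M)] at hq2 hq3
    omega
  have : CharP (IsLocalRing.ResidueField O) p :=
    charP_of_injective_ringHom (residueCast hpO).injective p
  have hu : IsUnit ((q : O) ^ 2 - 1) := by
    by_contra hn
    have h := (IsLocalRing.residue_eq_zero_iff ((q : O) ^ 2 - 1)).mpr hn
    rw [map_sub, map_pow, map_natCast, map_one, sub_eq_zero, ← Nat.cast_pow, ← Nat.cast_one] at h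
    have hd := (CharP.natCast_eq_natCast (IsLocalRing.ResidueField O) p).mp h
    rw [Nat.ModEq, Nat.mod_eq_of_lt (by omega), Nat.mod_eq_of_lt (by omega)] at hd
    nlinarith [hq.two_le]
  refine hρq q hq (by omega) hfac (isUnipotentOnInertiaAt_of_residual ρ hp hpO hq (by omega) hu
    (fun A hA σ hσ => ?_) fun A hA σ hσ => ?_)
  · obtain ⟨I⟩ := nonempty_inputs M p
    exact det_inertia hpO I (Finset.mem_insert_self _ _)
      (fun q hq h => Finset.mem_insert_of_mem (hMS q hq h))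
      ((algebraMap ℤ_[p] O).comp (ι.comp χ.rangeRestrict)) ρ
      (fun ℓ hℓ hℓM hℓS A hA σ hσ => hρ ℓ hℓ hℓM hℓS A hA σ hσ) hq (by omega) hA hσ
  · have htr := residue_trace hpO hΔ (fun ℓ hℓ hℓS => ⟨hgood ℓ hℓ fun h =>
      hℓS (Finset.mem_insert_of_mem h), fun h => hℓS (h ▸ Finset.mem_insert_self _ _)⟩) ρ hcurve σ
    rw [galoisTrace_inertia W hq (by omega) (by omega) hΔ (hss q hq) hA hσ, map_ofNat] at htr
    rw [← IsLocalRing.residue_eq_zero_iff, map_sub, htr, map_ofNat, sub_self]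

/-- A semistable curve modular of a cube-free level divisible by its bad primes is modular of
level its conductor, given the geometric input at `q² ∥ M`. -/
theorem isModularModelOfLevel_conductorLevel
    (hgeo : ∀ (N q : ℕ) [NeZero N] [NeZero q], q.Prime → q ∣ N → ¬ q ^ 2 ∣ N →
      SquareLevel.InertiaFixedBounded N q)
    (W : WeierstrassCurve ℤ) (hss : W.IsSemistableModel) (N : ℕ)
    (hN : W.IsModularModelOfLevel N) (hbad : ∀ ℓ : ℕ, ℓ.Prime → (ℓ : ℤ) ∣ W.Δ → ℓ ∣ N)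
    (hN3 : ∀ q : ℕ, q.Prime → ¬ q ^ 3 ∣ N) :
    W.IsModularModelOfLevel W.conductorLevel := by
  have : NeZero N := ⟨fun h => hN3 2 Nat.prime_two (h ▸ dvd_zero _)⟩
  have hΔ : W.Δ ≠ 0 := fun h => by
    obtain ⟨p, hp, hpp⟩ := Nat.exists_infinite_primes (N + 1)
    have := Nat.le_of_dvd (NeZero.pos N) (hbad p hpp (h ▸ dvd_zero _))
    omega
  obtain ⟨M, hMN, g, hg, hgN⟩ := exists_newform hN
  have : NeZero M := ⟨fun h => NeZero.ne N (zero_dvd_iff.mp (h ▸ hMN))⟩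
  let S₀ : Finset ℕ := N.primeFactors
  have hMS : ∀ q, q.Prime → q ∣ M → q ∈ S₀ := fun q hq h =>
    Nat.mem_primeFactors.mpr ⟨hq, h.trans hMN, NeZero.ne N⟩
  have hgood : ∀ ℓ, ℓ.Prime → ℓ ∉ S₀ → W.IsGoodPrimeFor ℓ := fun ℓ hℓ h hd =>
    h (Nat.mem_primeFactors.mpr ⟨hℓ, hbad ℓ hℓ hd, NeZero.ne N⟩)
  have hgW : ∀ ℓ, ℓ.Prime → ℓ ∉ S₀ → qCoeff g ℓ = (W.apOfModel ℓ : ℂ) := fun ℓ hℓ h =>
    hgN ℓ hℓ (hgood ℓ hℓ h) fun hd => h (Nat.mem_primeFactors.mpr ⟨hℓ, hd, NeZero.ne N⟩)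
  have hsq : ∀ q : ℕ, q.Prime → ¬ q ^ 2 ∣ M := fun q hq =>
    not_sq_dvd hgeo hg hΔ hss hMS hgood hgW hq fun h => hN3 q hq (h.trans hMN)
  have hM : M = W.conductorLevel := by
    refine (Nat.Squarefree.ext_iff ?_ W.squarefree_conductorLevel).mpr fun q hq => ?_
    · exact Nat.squarefree_iff_prime_squarefree.mpr fun q hq h => hsq q hq (by rwa [pow_two])
    · rw [W.prime_dvd_conductorLevel_iff hΔ hq]
      refine ⟨fun h => ?_, dvd_level_of_bad hg.1 hΔ hss hMS hgood hgW hq⟩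
      by_contra hqW
      exact hsq q hq (not_exactly_dvd_of_good hg hΔ hMS hgood hgW hq hqW h)
  subst hM
  exact ⟨g, hg.1, fun q hq hqW hqM => qCoeff_eq_apOfModel hg.1 hΔ hMS hgood hgW hq hqM hqW⟩

end Fermat.Agent.Level
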